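import Fermat.Agent.ES.M.Plan
import Fermat.Agent.INJ.NumField
import Fermat.Agent.INJ.InjDescentAux

/-!
# Brick PR, piece PR-4: the coefficientwise Frobenius on `F_{N,k}` and the reduction of the
decomposition group

`k` a field, `F_k = modularFunctionFieldFullC k N = k(j(q^d) : d ∣ N) ⊂ k((q))`.

* `prCoeffAut τ` : the coefficientwise action of a ring automorphism `τ` of `k` on `k((q))`;
* `prSemilinear τ N : SemilinearAut k F_k` : its restriction to `F_k` (base automorphism `τ`);
* `prFrob k ℓ N : SemilinearAut k F_k` : the coefficientwise Frobenius `∑ aₙ qⁿ ↦ ∑ aₙ^ℓ qⁿ`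
  (`k` perfect of characteristic `ℓ`);
* `prResAut σ hσ` : the automorphism of the residue field of `A` induced by an element `σ` of the
  decomposition group of `A`; it is the Frobenius for a Frobenius element (`prResAut_frobenius`)
  and the identity on inertia (`prResAut_inertia`);
* `pr_gaussRed_smul` : if `w` is the reduction of `x ∈ F_N` then `σ̄ w` is the reduction of `σ x`
  (`σ` in the decomposition group); `pr_gaussRed_frobenius`, `pr_gaussRed_inertia`.
-/

set_option autoImplicit false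

noncomputable section

namespace Fermat.Agent.PR

open ModularCurve AlgebraicCurve HahnSeries Fermat.Agent.ES Fermat.Agent.ES.M Fermat.Agent.S24
  Fermat.Agent.INJ

/-! ## 1. Coefficientwise automorphisms of `k((q))` and of `F_k` -/

section Coeff

variable {k : Type*} [Field k]

theorem pr_coeffMap_symm_apply (τ : k ≃+* k) (x : LaurentSeries k) :
    coeffMap (τ.symm : k →+* k) (coeffMap (τ : k →+* k) x) = x := by
  rw [coeffMap_coeffMap]
  have h : ((τ.symm : k →+* k).comp (τ : k →+* k)) = RingHom.id k :=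
    RingHom.ext fun a => τ.symm_apply_apply a
  rw [coeffMap_congr h, coeffMap_id]

theorem pr_coeffMap_apply_symm (τ : k ≃+* k) (x : LaurentSeries k) :
    coeffMap (τ : k →+* k) (coeffMap (τ.symm : k →+* k) x) = x := by
  rw [coeffMap_coeffMap]
  have h : ((τ : k →+* k).comp (τ.symm : k →+* k)) = RingHom.id k :=
    RingHom.ext fun a => τ.apply_symm_apply a
  rw [coeffMap_congr h, coeffMap_id]

/-- the coefficientwise action of a ring automorphism of `k` on `k((q))` -/
def prCoeffAut (τ : k ≃+* k) : LaurentSeries k ≃+* LaurentSeries k where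
  toFun := coeffMap (τ : k →+* k)
  invFun := coeffMap (τ.symm : k →+* k)
  left_inv := pr_coeffMap_symm_apply τ
  right_inv := pr_coeffMap_apply_symm τ
  map_mul' := map_mul _
  map_add' := map_add _

@[simp] theorem prCoeffAut_apply (τ : k ≃+* k) (x : LaurentSeries k) :
    prCoeffAut τ x = coeffMap (τ : k →+* k) x := rfl

@[simp] theorem prCoeffAut_symm_apply (τ : k ≃+* k) (x : LaurentSeries k) :
    (prCoeffAut τ).symm x = coeffMap (τ.symm : k →+* k) x := rfl

theorem prCoeffAut_coeff (τ : k ≃+* k) (x : LaurentSeries k) (n : ℤ) :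
    (prCoeffAut τ x).coeff n = τ (x.coeff n) := rfl

variable (N : ℕ)

/-- the coefficientwise action on `F_k` -/
def prFieldAut (τ : k ≃+* k) :
    modularFunctionFieldFullC k N ≃+* modularFunctionFieldFullC k N where
  toFun x := ⟨coeffMap (τ : k →+* k) x, nf_coeffMap_mem_fullC (τ : k →+* k) N x.2⟩
  invFun x := ⟨coeffMap (τ.symm : k →+* k) x, nf_coeffMap_mem_fullC (τ.symm : k →+* k) N x.2⟩
  left_inv x := Subtype.ext (pr_coeffMap_symm_apply τ x)
  right_inv x := Subtype.ext (pr_coeffMap_apply_symm τ x)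
  map_mul' _ _ := Subtype.ext (map_mul _ _ _)
  map_add' _ _ := Subtype.ext (map_add _ _ _)

@[simp] theorem coe_prFieldAut (τ : k ≃+* k) (x : modularFunctionFieldFullC k N) :
    ((prFieldAut N τ x : modularFunctionFieldFullC k N) : LaurentSeries k)
      = coeffMap (τ : k →+* k) x := rfl

@[simp] theorem coe_prFieldAut_symm (τ : k ≃+* k) (x : modularFunctionFieldFullC k N) :
    (((prFieldAut N τ).symm x : modularFunctionFieldFullC k N) : LaurentSeries k)
      = coeffMap (τ.symm : k →+* k) x := rfl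

theorem pr_coeffMap_algebraMap (τ : k →+* k) (a : k) :
    coeffMap τ (algebraMap k (LaurentSeries k) a) = algebraMap k (LaurentSeries k) (τ a) := by
  rw [algebraMap_laurentSeries_eq_single, algebraMap_laurentSeries_eq_single, coeffMap_single]

theorem prFieldAut_algebraMap (τ : k ≃+* k) (a : k) :
    prFieldAut N τ (algebraMap k (modularFunctionFieldFullC k N) a)
      = algebraMap k (modularFunctionFieldFullC k N) (τ a) :=
  Subtype.ext (pr_coeffMap_algebraMap (τ : k →+* k) a)

/-- **the coefficientwise action of `τ ∈ Aut(k)` as a semilinear automorphism of `F_k`** -/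
def prSemilinear (τ : k ≃+* k) : SemilinearAut k (modularFunctionFieldFullC k N) :=
  ⟨(prFieldAut N τ, τ), fun a => prFieldAut_algebraMap N τ a⟩

@[simp] theorem toRingAut_prSemilinear (τ : k ≃+* k) :
    SemilinearAut.toRingAut (prSemilinear N τ) = prFieldAut N τ := rfl

@[simp] theorem baseAut_prSemilinear (τ : k ≃+* k) :
    SemilinearAut.baseAut (prSemilinear N τ) = τ := rfl

theorem coe_prSemilinear_smul (τ : k ≃+* k) (x : modularFunctionFieldFullC k N) :
    ((prSemilinear N τ • x : modularFunctionFieldFullC k N) : LaurentSeries k)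
      = coeffMap (τ : k →+* k) x := rfl

theorem coe_prSemilinear_inv_smul (τ : k ≃+* k) (x : modularFunctionFieldFullC k N) :
    (((prSemilinear N τ)⁻¹ • x : modularFunctionFieldFullC k N) : LaurentSeries k)
      = coeffMap (τ.symm : k →+* k) x := rfl

theorem prSemilinear_one : prSemilinear N (RingEquiv.refl k) = 1 := by
  refine Subtype.ext (Prod.ext (RingEquiv.ext fun x => Subtype.ext ?_) rfl)
  show coeffMap ((RingEquiv.refl k : k ≃+* k) : k →+* k) (x : LaurentSeries k) = x
  have h : ((RingEquiv.refl k : k ≃+* k) : k →+* k) = RingHom.id k := rfl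
  rw [coeffMap_congr h, coeffMap_id]

theorem prSemilinear_mul (σ τ : k ≃+* k) :
    prSemilinear N (σ * τ) = prSemilinear N σ * prSemilinear N τ := by
  refine Subtype.ext (Prod.ext (RingEquiv.ext fun x => Subtype.ext ?_) rfl)
  show coeffMap ((σ * τ : k ≃+* k) : k →+* k) (x : LaurentSeries k)
    = coeffMap (σ : k →+* k) (coeffMap (τ : k →+* k) (x : LaurentSeries k))
  rw [coeffMap_coeffMap]
  exact coeffMap_congr (RingHom.ext fun _ => rfl) _

end Coeff

/-! ## 2. The coefficientwise Frobenius -/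

section Frobenius

variable (k : Type*) [Field k] (ℓ : ℕ) [Fact ℓ.Prime] [CharP k ℓ] [PerfectRing k ℓ] (N : ℕ)

/-- **`Fr`**: the coefficientwise Frobenius of `F_k`, `∑ aₙ qⁿ ↦ ∑ aₙ^ℓ qⁿ`. -/
def prFrob : SemilinearAut k (modularFunctionFieldFullC k N) :=
  prSemilinear N (frobeniusEquiv k ℓ)

theorem coe_prFrob_smul (x : modularFunctionFieldFullC k N) :
    ((prFrob k ℓ N • x : modularFunctionFieldFullC k N) : LaurentSeries k)
      = coeffMap (frobenius k ℓ) x := rfl

theorem prFrob_smul_coeff (x : modularFunctionFieldFullC k N) (n : ℤ) :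
    ((prFrob k ℓ N • x : modularFunctionFieldFullC k N) : LaurentSeries k).coeff n
      = (x : LaurentSeries k).coeff n ^ ℓ := rfl

@[simp] theorem baseAut_prFrob :
    SemilinearAut.baseAut (prFrob k ℓ N) = frobeniusEquiv k ℓ := rfl

theorem prFrob_smul_algebraMap (a : k) :
    prFrob k ℓ N • algebraMap k (modularFunctionFieldFullC k N) a
      = algebraMap k (modularFunctionFieldFullC k N) (a ^ ℓ) :=
  prFieldAut_algebraMap N (frobeniusEquiv k ℓ) a

/-- `x ^ ℓ = (Fr x)(q^ℓ)` in `k((q))`. -/
theorem prFrob_pow (x : modularFunctionFieldFullC k N) :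
    (x : LaurentSeries k) ^ ℓ
      = qExpand k ℓ ((prFrob k ℓ N • x : modularFunctionFieldFullC k N) : LaurentSeries k) := by
  have : NeZero ℓ := ⟨(Fact.out : ℓ.Prime).ne_zero⟩
  rw [coe_prFrob_smul]
  exact kron_frobenius_pow ℓ (x : LaurentSeries k)

end Frobenius

/-! ## 3. The residue action of the decomposition group -/

section Residue

variable {K L : Type*} [Field K] [Field L] [Algebra K L] {A : ValuationSubring L}

/-- the automorphism of the residue field induced by an element of the decomposition group -/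
def prResAut (σ : L ≃ₐ[K] L) (hσ : σ ∈ A.decompositionSubgroup K) :
    IsLocalRing.ResidueField A ≃+* IsLocalRing.ResidueField A :=
  MulSemiringAction.toRingAut (A.decompositionSubgroup K) (IsLocalRing.ResidueField A) ⟨σ, hσ⟩

theorem prResAut_residue (σ : L ≃ₐ[K] L) (hσ : σ ∈ A.decompositionSubgroup K) (a : A) :
    prResAut σ hσ (IsLocalRing.residue A a) = IsLocalRing.residue A (kronDecompHom σ hσ a) := by
  show (⟨σ, hσ⟩ : A.decompositionSubgroup K) • (IsLocalRing.residue A a) = _
  rw [← IsLocalRing.ResidueField.residue_smul]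
  rfl

theorem prResAut_frobenius {ℓ : ℕ} [Fact ℓ.Prime] [CharP (IsLocalRing.ResidueField A) ℓ]
    [PerfectRing (IsLocalRing.ResidueField A) ℓ]
    (τ : L ≃ₐ[K] L) (hτ : A.IsFrobeniusAt τ ℓ) :
    prResAut τ hτ.mem_decompositionSubgroup = frobeniusEquiv (IsLocalRing.ResidueField A) ℓ := by
  ext x
  exact hτ.smul_residue_eq x

theorem prResAut_inertia {σ : L ≃ₐ[K] L} (hσ : σ ∈ A.inertiaSubgroupIn K) :
    prResAut σ (kron_mem_decomposition_of_mem_inertia hσ) = RingEquiv.refl _ := by
  ext x
  obtain ⟨a, rfl⟩ := IsLocalRing.residue_surjective x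
  rw [prResAut_residue, kron_residue_inertia hσ]
  rfl

/-- reduction commutes with the coefficientwise action of the decomposition group -/
theorem pr_kronRed_coeffMap (σ : L ≃ₐ[K] L) (hσ : σ ∈ A.decompositionSubgroup K)
    (Y : LaurentSeries A) :
    kronRed A (coeffMap (kronDecompHom σ hσ) Y)
      = coeffMap ((prResAut σ hσ : _ ≃+* _) : _ →+* _) (kronRed A Y) := by
  ext n
  show IsLocalRing.residue A (kronDecompHom σ hσ (Y.coeff n))
    = prResAut σ hσ (IsLocalRing.residue A (Y.coeff n))
  rw [prResAut_residue]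

end Residue

/-! ## 4. Reduction of `σ x` for `σ` in the decomposition group -/

section GaussRed

set_option synthInstance.maxHeartbeats 400000

variable (N : ℕ) (A : ValuationSubring Kb)

/-- the arithmetic Galois action on `F_N` is the coefficientwise action -/
theorem pr_coe_arith_smul (σ : Kb ≃ₐ[ℚ] Kb) (x : FF N) :
    ((arithmeticGalois (modularFunctionFieldFull N) σ • x : FF N) : LaurentSeries Kb)
      = coeffMap (σ : Kb →+* Kb) (x : LaurentSeries Kb) := rfl

/-- **reduction of `σ x`**: if `w` is the reduction of `x`, then `σ̄ w` is the reduction of `σ x`,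
for `σ` in the decomposition group of `A`. -/
theorem pr_gaussRed_smul (σ : Kb ≃ₐ[ℚ] Kb) (hσ : σ ∈ A.decompositionSubgroup ℚ)
    {x : FF N} {w : LaurentSeries (kA A)} (h : GaussRed N A x w) :
    GaussRed N A (arithmeticGalois (modularFunctionFieldFull N) σ • x)
      (coeffMap ((prResAut σ hσ : _ ≃+* _) : _ →+* _) w) := by
  obtain ⟨Y₁, Y₂, h₁, h₂, hne, hx, hw⟩ := h
  refine ⟨coeffMap (kronDecompHom σ hσ) Y₁, coeffMap (kronDecompHom σ hσ) Y₂, ?_, ?_, ?_, ?_, ?_⟩
  · rw [kronIncl_coeffMap_kronDecompHom]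
    exact coeffMap_mem_laurentBaseChange σ h₁
  · rw [kronIncl_coeffMap_kronDecompHom]
    exact coeffMap_mem_laurentBaseChange σ h₂
  · rw [pr_kronRed_coeffMap]
    intro h0
    apply hne
    have := congrArg (coeffMap (((prResAut σ hσ).symm : kA A ≃+* kA A) : kA A →+* kA A)) h0
    rwa [pr_coeffMap_symm_apply, map_zero] at this
  · rw [kronIncl_coeffMap_kronDecompHom, kronIncl_coeffMap_kronDecompHom, pr_coe_arith_smul,
      ← map_mul, hx]
  · rw [pr_kronRed_coeffMap, pr_kronRed_coeffMap, ← map_mul, hw]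

/-- Gauss-integrality is stable under the decomposition group. -/
theorem pr_gaussInt_smul (σ : Kb ≃ₐ[ℚ] Kb) (hσ : σ ∈ A.decompositionSubgroup ℚ)
    {x : FF N} (h : GaussInt N A x) :
    GaussInt N A (arithmeticGalois (modularFunctionFieldFull N) σ • x) := by
  obtain ⟨w, hw⟩ := h
  exact ⟨_, pr_gaussRed_smul N A σ hσ hw⟩

/-- **Frobenius**: the reduction of `φ x` is `Fr (x̄)` (coefficientwise `ℓ`-th power). -/
theorem pr_gaussRed_frobenius {ℓ : ℕ} [Fact ℓ.Prime] [CharP (kA A) ℓ]
    (φ : Kb ≃ₐ[ℚ] Kb) (hφ : A.IsFrobeniusAt φ ℓ)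
    {x : FF N} {w : LaurentSeries (kA A)} (h : GaussRed N A x w) :
    GaussRed N A (arithmeticGalois (modularFunctionFieldFull N) φ • x)
      (coeffMap (frobenius (kA A) ℓ) w) := by
  have h1 := pr_gaussRed_smul N A φ hφ.mem_decompositionSubgroup h
  have h2 : coeffMap ((prResAut φ hφ.mem_decompositionSubgroup : _ ≃+* _) : _ →+* _) w
      = coeffMap (frobenius (kA A) ℓ) w := by
    ext n
    show prResAut φ hφ.mem_decompositionSubgroup (w.coeff n) = (w.coeff n) ^ ℓ
    exact hφ.smul_residue_eq (w.coeff n)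
  rwa [h2] at h1

/-- **Inertia**: the reduction of `σ x` is the reduction of `x`. -/
theorem pr_gaussRed_inertia (σ : Kb ≃ₐ[ℚ] Kb) (hσ : σ ∈ A.inertiaSubgroupIn ℚ)
    {x : FF N} {w : LaurentSeries (kA A)} (h : GaussRed N A x w) :
    GaussRed N A (arithmeticGalois (modularFunctionFieldFull N) σ • x) w := by
  have h1 := pr_gaussRed_smul N A σ (kron_mem_decomposition_of_mem_inertia hσ) h
  have h2 : coeffMap ((prResAut σ (kron_mem_decomposition_of_mem_inertia hσ) : _ ≃+* _) :
      _ →+* _) w = w := by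
    rw [prResAut_inertia hσ]
    have h : ((RingEquiv.refl (kA A) : kA A ≃+* kA A) : kA A →+* kA A)
        = RingHom.id (kA A) := rfl
    rw [coeffMap_congr h, coeffMap_id]
  rwa [h2] at h1

/-- `σ̄` as a semilinear automorphism of `F_k`: reduction of `σ x`, with values in `F_k`. -/
theorem pr_gaussRed_prSemilinear (σ : Kb ≃ₐ[ℚ] Kb) (hσ : σ ∈ A.decompositionSubgroup ℚ)
    {x : FF N} {y : modularFunctionFieldFullC (kA A) N}
    (h : GaussRed N A x (y : LaurentSeries (kA A))) :
    GaussRed N A (arithmeticGalois (modularFunctionFieldFull N) σ • x)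
      ((prSemilinear N (prResAut σ hσ) • y : modularFunctionFieldFullC (kA A) N) :
        LaurentSeries (kA A)) :=
  pr_gaussRed_smul N A σ hσ h

/-- **`Fr` for the residue field of `A`** (a valuation ring of `ℚ̄` over `ℓ`). -/
def prFrobA {ℓ : ℕ} (hℓ : ℓ.Prime) (hA : A.LiesOverPrime ℓ) :
    SemilinearAut (kA A) (modularFunctionFieldFullC (kA A) N) :=
  haveI : Fact ℓ.Prime := ⟨hℓ⟩
  haveI : CharP (kA A) ℓ := kron_charP_residueField hℓ hA
  haveI : PerfectRing (kA A) ℓ := nf_perfectRing_residueField A ℓ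
  prFrob (kA A) ℓ N

theorem prFrobA_smul_coeff {ℓ : ℕ} (hℓ : ℓ.Prime) (hA : A.LiesOverPrime ℓ)
    (y : modularFunctionFieldFullC (kA A) N) (n : ℤ) :
    ((prFrobA N A hℓ hA • y : modularFunctionFieldFullC (kA A) N) : LaurentSeries (kA A)).coeff n
      = (y : LaurentSeries (kA A)).coeff n ^ ℓ := rfl

theorem baseAut_prFrobA_apply {ℓ : ℕ} (hℓ : ℓ.Prime) (hA : A.LiesOverPrime ℓ) (a : kA A) :
    SemilinearAut.baseAut (prFrobA N A hℓ hA) a = a ^ ℓ := rfl

/-- for a Frobenius element `φ`, `prFrobA` is the semilinear automorphism induced by `φ̄`. -/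
theorem prFrobA_eq_prSemilinear {ℓ : ℕ} (hℓ : ℓ.Prime) (hA : A.LiesOverPrime ℓ)
    (φ : Kb ≃ₐ[ℚ] Kb) (hφ : A.IsFrobeniusAt φ ℓ) :
    prFrobA N A hℓ hA = prSemilinear N (prResAut φ hφ.mem_decompositionSubgroup) := by
  have : Fact ℓ.Prime := ⟨hℓ⟩
  have : CharP (kA A) ℓ := kron_charP_residueField hℓ hA
  have : PerfectRing (kA A) ℓ := nf_perfectRing_residueField A ℓ
  show prSemilinear N (frobeniusEquiv (kA A) ℓ) = _
  rw [prResAut_frobenius φ hφ]

/-- for `σ` in the inertia group the induced semilinear automorphism is trivial. -/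
theorem prSemilinear_inertia (σ : Kb ≃ₐ[ℚ] Kb) (hσ : σ ∈ A.inertiaSubgroupIn ℚ) :
    prSemilinear N (prResAut σ (kron_mem_decomposition_of_mem_inertia hσ))
      = (1 : SemilinearAut (kA A) (modularFunctionFieldFullC (kA A) N)) := by
  rw [prResAut_inertia hσ]
  exact prSemilinear_one N

/-- **Frobenius, in `F_k`**: the reduction of `φ x` is `Fr • (reduction of x)`. -/
theorem pr_gaussRed_prFrobA {ℓ : ℕ} (hℓ : ℓ.Prime) (hA : A.LiesOverPrime ℓ)
    (φ : Kb ≃ₐ[ℚ] Kb) (hφ : A.IsFrobeniusAt φ ℓ)
    {x : FF N} {y : modularFunctionFieldFullC (kA A) N}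
    (h : GaussRed N A x (y : LaurentSeries (kA A))) :
    GaussRed N A (arithmeticGalois (modularFunctionFieldFull N) φ • x)
      ((prFrobA N A hℓ hA • y : modularFunctionFieldFullC (kA A) N) : LaurentSeries (kA A)) := by
  rw [prFrobA_eq_prSemilinear N A hℓ hA φ hφ]
  exact pr_gaussRed_prSemilinear N A φ hφ.mem_decompositionSubgroup h

end GaussRed

end Fermat.Agent.PR
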